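/-
S55 / 46-K5-TWCONJ (helper84), file 1: GENERIC TRANSPORT between the two shapes of "the local group
at a place above an open subgroup" which are present on main, at `V = π.ker`:

* helper73/helper64/helper94 (`Idele73.Mackey`, `JSH2_64.OpenSub`, `GlobalMod94.OpenJS`): the
  subgroup `Mackey.twSub r V x = {d | x⁻¹ r(d) x ∈ V}` of the local group `H`, with the level
  structure `OpenSub.levelsAt 𝒱 x = 𝒱.comap subtype` and the map
  `Mackey.twHom r V x : d ↦ x⁻¹ r(d) x` into `V`;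
* helper84/helper23/helper92/helper96/helper67 (`ShaTransport84`, `CountWire23`, `S2Count92`,
  `CountWire96`, `S1_67.P6Inst`): the subgroup `(π.comp r).ker` of `H`, with the level structure
  `kerLevels 𝒱 _` and the map `conjKer π r t : n ↦ t r(n) t⁻¹` into `π.ker`.

For `V = π.ker` and `t = x⁻¹` the two subgroups have the same elements (`twIso`), the two maps
agree (`twHom_eq`), the two level structures define the same topology (`levelEquiv_tw`), hence
level cohomology with coefficients restricted from any `A : Rep k ↥π.ker` is the same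
(`twH1`, `twH2`), compatibly with the restriction maps from `H^*(π.ker; A)`
(`twH1_res₁`, `twH2_res₂`).
-/
import Fermat.Agent.S55.JSH2_64.OpenSub
import Fermat.Agent.S55.ShaTransport84.Transport
import Fermat.Agent.S55.KummerBr95.LevelEquiv

set_option autoImplicit false
set_option linter.unusedSectionVars false

open CategoryTheory groupCohomology

namespace Fermat.Agent.S55.TwConj84

open Fermat.Agent.S55.Profin15 Fermat.Agent.S55.ShapiroLevel32 Fermat.Agent.S55.ShaTransport84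
open Fermat.Agent.S55.Idele73 Fermat.Agent.S55.JSH2_64 Fermat.Agent.S55.KummerBr95

variable {k G Γ H : Type} [CommRing k] [Group G] [Group Γ] [Group H]

section Group

variable (π : G →* Γ) (r : H →* G) (x : G)

/-- **(T1)** for `V = π.ker` the twisted subgroup `{d | x⁻¹ r(d) x ∈ V}` is `(π ∘ r).ker`. -/
lemma mem_twSub_ker_iff (d : H) : d ∈ Mackey.twSub r π.ker x ↔ d ∈ (π.comp r).ker := by
  rw [Mackey.mem_twSub, MonoidHom.mem_ker, MonoidHom.mem_ker, MonoidHom.comp_apply, map_mul,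
    map_mul, map_inv]
  constructor
  · intro h
    have h1 : π (r d) = π x * ((π x)⁻¹ * π (r d) * π x) * (π x)⁻¹ := by group
    rw [h1, h, mul_one, mul_inv_cancel]
  · intro h
    rw [h, mul_one, inv_mul_cancel]

/-- **(T2)** the identification `twSub r π.ker x ≃* (π ∘ r).ker` (identity on elements) -/
def twIso : ↥(Mackey.twSub r π.ker x) ≃* ↥(π.comp r).ker where
  toFun d := ⟨d.1, (mem_twSub_ker_iff π r x d.1).1 d.2⟩
  invFun n := ⟨n.1, (mem_twSub_ker_iff π r x n.1).2 n.2⟩
  left_inv _ := rfl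
  right_inv _ := rfl
  map_mul' _ _ := rfl

@[simp] lemma coe_twIso (d : ↥(Mackey.twSub r π.ker x)) :
    ((twIso π r x d : ↥(π.comp r).ker) : H) = (d : H) := rfl

@[simp] lemma coe_twIso_symm (n : ↥(π.comp r).ker) :
    (((twIso π r x).symm n : ↥(Mackey.twSub r π.ker x)) : H) = (n : H) := rfl

/-- **(T2)** `twHom r π.ker x = conjKer π r x⁻¹ ∘ twIso` -/
lemma twHom_eq (d : ↥(Mackey.twSub r π.ker x)) :
    Mackey.twHom r π.ker x d = conjKer π r x⁻¹ (twIso π r x d) := by
  apply Subtype.ext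
  rw [Mackey.coe_twHom, coe_conjKer, inv_inv, coe_twIso]

lemma twHom_eq_comp :
    Mackey.twHom r π.ker x = (conjKer π r x⁻¹).comp ((twIso π r x : _ ≃* _) : _ →* _) :=
  MonoidHom.ext (twHom_eq π r x)

end Group

section Levels

variable {𝒰 : LevelStr G} {𝒱 : LevelStr H} {r : H →* G} {π : G →* Γ}
  (hr : LevelStr.IsContinuous 𝒱 𝒰 r) (hker : ∃ V ∈ 𝒰.levels, V ≤ π.ker) (x : G)

/-- **(T3)** the two level structures on `twSub r π.ker x` define the same topology -/
theorem levelEquiv_tw :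
    LevelEquiv (OpenSub.levelsAt (φ := r) (V := π.ker) 𝒱 x)
      ((kerLevels 𝒱 (hker_comp hr hker)).comap ((twIso π r x : _ ≃* _) : _ →* _)) := by
  constructor
  · rintro W' ⟨W, hW, rfl⟩
    obtain ⟨V₀, hV₀, hle₀⟩ := hker_comp hr hker
    obtain ⟨W'', hW'', hle⟩ := 𝒱.directed W hW V₀ hV₀
    refine ⟨(W''.subgroupOf (π.comp r).ker).comap ((twIso π r x : _ ≃* _) : _ →* _),
      ⟨W''.subgroupOf (π.comp r).ker, ⟨W'', hW'', (hle.trans inf_le_right).trans hle₀, rfl⟩, rfl⟩,
      ?_⟩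
    intro d hd
    have hd' : ((twIso π r x d : ↥(π.comp r).ker) : H) ∈ W'' := Subgroup.mem_subgroupOf.1 hd
    exact (hle hd').1
  · rintro W' ⟨W₁, ⟨W, hW, -, rfl⟩, rfl⟩
    exact ⟨W.comap (Mackey.twSub r π.ker x).subtype, ⟨W, hW, rfl⟩, fun d hd => hd⟩

variable (A : Rep.{0} k ↥π.ker)

/-- the coefficient modules `Res_{twIso} Res_{conjKer} A` and `Res_{twHom} A` have the same
carrier and the same action -/
lemma isEquivariant_coeff :
    LevelStr.IsEquivariant
      (A := Rep.res ((twIso π r x : _ ≃* _) : _ →* _) (Rep.res (conjKer π r x⁻¹) A))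
      (B := Rep.res (Mackey.twHom r π.ker x) A) LinearMap.id := by
  intro d a
  show A.ρ (conjKer π r x⁻¹ (twIso π r x d)) a = A.ρ (Mackey.twHom r π.ker x d) a
  rw [twHom_eq]

lemma isEquivariant_coeff_symm :
    LevelStr.IsEquivariant
      (A := Rep.res (Mackey.twHom r π.ker x) A)
      (B := Rep.res ((twIso π r x : _ ≃* _) : _ →* _) (Rep.res (conjKer π r x⁻¹) A))
      LinearMap.id := by
  intro d a
  show A.ρ (Mackey.twHom r π.ker x d) a = A.ρ (conjKer π r x⁻¹ (twIso π r x d)) a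
  rw [twHom_eq]

/-- the coefficient identification on `H¹` -/
noncomputable def coeffH1 (𝒲 : LevelStr ↥(Mackey.twSub r π.ker x)) :
    𝒲.H1 (Rep.res ((twIso π r x : _ ≃* _) : _ →* _) (Rep.res (conjKer π r x⁻¹) A)) ≃ₗ[k]
      𝒲.H1 (Rep.res (Mackey.twHom r π.ker x) A) :=
  LinearEquiv.ofLinearMap (𝒲.H1map LinearMap.id (isEquivariant_coeff x A))
    (𝒲.H1map LinearMap.id (isEquivariant_coeff_symm x A))
    (LinearMap.ext fun y => by
      obtain ⟨c, rfl⟩ := Submodule.Quotient.mk_surjective _ y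
      rfl)
    (LinearMap.ext fun y => by
      obtain ⟨c, rfl⟩ := Submodule.Quotient.mk_surjective _ y
      rfl)

/-- the coefficient identification on `H²` -/
noncomputable def coeffH2 (𝒲 : LevelStr ↥(Mackey.twSub r π.ker x)) :
    𝒲.H2 (Rep.res ((twIso π r x : _ ≃* _) : _ →* _) (Rep.res (conjKer π r x⁻¹) A)) ≃ₗ[k]
      𝒲.H2 (Rep.res (Mackey.twHom r π.ker x) A) :=
  LinearEquiv.ofLinearMap (𝒲.H2map LinearMap.id (isEquivariant_coeff x A))
    (𝒲.H2map LinearMap.id (isEquivariant_coeff_symm x A))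
    (LinearMap.ext fun y => by
      obtain ⟨c, rfl⟩ := Submodule.Quotient.mk_surjective _ y
      rfl)
    (LinearMap.ext fun y => by
      obtain ⟨c, rfl⟩ := Submodule.Quotient.mk_surjective _ y
      rfl)

/-- **(T4)** `H¹` of the conjugate-family shape `≃` `H¹` of the place shape -/
noncomputable def twH1 :
    (kerLevels 𝒱 (hker_comp hr hker)).H1 (Rep.res (conjKer π r x⁻¹) A) ≃ₗ[k]
      (OpenSub.levelsAt (φ := r) (V := π.ker) 𝒱 x).H1 (Rep.res (Mackey.twHom r π.ker x) A) :=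
  (resEquiv₁ (kerLevels 𝒱 (hker_comp hr hker)) (twIso π r x) (Rep.res (conjKer π r x⁻¹) A)).trans
    (((levelEquiv_tw hr hker x).symm.H1Equiv _).trans (coeffH1 x A _))

/-- **(T4)** `H²` of the conjugate-family shape `≃` `H²` of the place shape -/
noncomputable def twH2 :
    (kerLevels 𝒱 (hker_comp hr hker)).H2 (Rep.res (conjKer π r x⁻¹) A) ≃ₗ[k]
      (OpenSub.levelsAt (φ := r) (V := π.ker) 𝒱 x).H2 (Rep.res (Mackey.twHom r π.ker x) A) :=
  (resEquiv₂ (kerLevels 𝒱 (hker_comp hr hker)) (twIso π r x) (Rep.res (conjKer π r x⁻¹) A)).trans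
    (((levelEquiv_tw hr hker x).symm.H2Equiv _).trans (coeffH2 x A _))

/-- **(T4)** compatibility with the restriction maps from `H¹(π.ker; A)` -/
theorem twH1_res₁ (a : (kerLevels 𝒰 hker).H1 A) :
    twH1 hr hker x A ((conjKer_isContinuous hr hker x⁻¹).res₁ A a) =
      (OpenSub.isContinuous_twHom (𝒰 := 𝒰) (φ := r) (V := π.ker) 𝒱 hker hr x).res₁ A a := by
  obtain ⟨f, rfl⟩ := Submodule.Quotient.mk_surjective _ a
  show (OpenSub.levelsAt (φ := r) (V := π.ker) 𝒱 x).H1π _ _ =
    (OpenSub.levelsAt (φ := r) (V := π.ker) 𝒱 x).H1π _ _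
  congr 1
  apply Subtype.ext
  funext d
  show (f : ↥π.ker → A) (conjKer π r x⁻¹ (twIso π r x d)) =
    (f : ↥π.ker → A) (Mackey.twHom r π.ker x d)
  rw [twHom_eq]

/-- **(T4)** compatibility with the restriction maps from `H²(π.ker; A)` -/
theorem twH2_res₂ (a : (kerLevels 𝒰 hker).H2 A) :
    twH2 hr hker x A ((conjKer_isContinuous hr hker x⁻¹).res₂ A a) =
      (OpenSub.isContinuous_twHom (𝒰 := 𝒰) (φ := r) (V := π.ker) 𝒱 hker hr x).res₂ A a := by
  obtain ⟨f, rfl⟩ := Submodule.Quotient.mk_surjective _ a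
  show (OpenSub.levelsAt (φ := r) (V := π.ker) 𝒱 x).H2π _ _ =
    (OpenSub.levelsAt (φ := r) (V := π.ker) 𝒱 x).H2π _ _
  congr 1
  apply Subtype.ext
  funext ⟨d, d'⟩
  show (f : ↥π.ker × ↥π.ker → A) (conjKer π r x⁻¹ (twIso π r x d), conjKer π r x⁻¹ (twIso π r x d')) =
    (f : ↥π.ker × ↥π.ker → A) (Mackey.twHom r π.ker x d, Mackey.twHom r π.ker x d')
  rw [twHom_eq, twHom_eq]

/-- the two restriction maps have the same kernel, degree `1` -/
theorem res₁_conjKer_eq_zero_iff (a : (kerLevels 𝒰 hker).H1 A) :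
    (conjKer_isContinuous hr hker x⁻¹).res₁ A a = 0 ↔
      (OpenSub.isContinuous_twHom (𝒰 := 𝒰) (φ := r) (V := π.ker) 𝒱 hker hr x).res₁ A a = 0 := by
  rw [← twH1_res₁ hr hker x A a]
  exact (LinearEquiv.map_eq_zero_iff _).symm

/-- the two restriction maps have the same kernel, degree `2` -/
theorem res₂_conjKer_eq_zero_iff (a : (kerLevels 𝒰 hker).H2 A) :
    (conjKer_isContinuous hr hker x⁻¹).res₂ A a = 0 ↔
      (OpenSub.isContinuous_twHom (𝒰 := 𝒰) (φ := r) (V := π.ker) 𝒱 hker hr x).res₂ A a = 0 := by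
  rw [← twH2_res₂ hr hker x A a]
  exact (LinearEquiv.map_eq_zero_iff _).symm

end Levels

end Fermat.Agent.S55.TwConj84
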