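/-
S55 / 46-K5-TWCONJ (helper84), file 2: `P7Named84.ShaKummer p S` (the LAST arithmetic input of
(P7') `Contract34.HilbertCount`) from the KERNEL HALF OF (S1) AT THE PLACES `PlaceV S V hV` of
helper94's `GlobalMod94.OpenJS` (= the shape of helper32's `KummerSq32` (K4) `sha2_iff_placeV`,
i.e. helper41's `S1Limit41.Global.sha2_iffV` with `W := PlaceV S V hV`,
`locZ w := (hcontS S V hV w.1 w.2).res₂ (ZV V p)`), at `V = (piU U).ker`.

Steps: the representatives `x ∈ RS S V hV q` of `D_q \ G_ℚ / V` give the conjugate family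
`tRS q x = x⁻¹` (`covers_tRS`); restriction along `conjKer (mk' U) r_q x⁻¹` and along
`Mackey.twHom r_q V x` have the same kernel (`TwConj84.res₂_conjKer_eq_zero_iff`); the passage
`𝔽_p ↔ μ_p` is helper92's `S2Count92.hsha_of_kernelHalf`; `USha₂` does not depend on the covering
family (helper23's `CountWire23.USha₂_eq_of_covers`).
-/
import Fermat.Agent.S55.TwConj84.Transport
import Fermat.Agent.S55.CountWire23.FamilyIndep
import Fermat.Agent.S55.S2Count92.HshaAdapt
import Fermat.Agent.S55.GlobalMod94.OpenJS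
import Fermat.Agent.S55.GlobalMod94.H1
import Fermat.Agent.S55.S1Limit41.Global
import Fermat.Agent.S55.P7Named84

set_option autoImplicit false
set_option linter.unusedSectionVars false

open CategoryTheory groupCohomology Module ExtCitation

noncomputable section

namespace Fermat.Agent.S55.TwConj84

open Fermat.Agent.S55.Profin15 Fermat.Agent.S55.Profin15.LevelStr
open Fermat.Agent.S55.ShapiroLevel32 Fermat.Agent.S55.ShaTransport84
open Fermat.Agent.S55.Idele73 Fermat.Agent.S55.JSH2_64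
open Fermat.Agent.S55.ESRep20 Fermat.Agent.S55.ESKummer20
open Fermat.Agent.S55.S1Limit41.Global Fermat.Agent.S55.S1Limit41.H1Cofinal
open Fermat.Agent.S55.GlobalMod94.JS Fermat.Agent.S55.ClassLimit72
open Fermat.Agent.S55.CountWire96
open Fermat.Agent.S55.GlobalMod94
open Fermat.Agent.Lib.FrobeniusExists (Qb GQ)

variable {p : ℕ} [Fact p.Prime] {S : Finset Nat.Primes} {U : Subgroup GQ} [U.Normal]
  (hU : U ∈ (globalLevels S).levels)

/-- the open subgroup `V = (piU U).ker` (`= U`) -/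
abbrev VU (U : Subgroup GQ) [U.Normal] : Subgroup GQ := (piU U).ker

include hU in
theorem hVU : CD3.IsOpenSub (globalLevels S) (VU U) := hkerU hU

/-- the index set of the conjugate family attached to helper94's representatives of
`D_q \ G_ℚ / V` -/
abbrev JRS (q : ↥S) : Type := ↥(OpenJS.RS S (VU U) (hVU hU) q)

/-- the conjugators `x⁻¹`, `x ∈ RS S V hV q` -/
abbrev tRS (q : ↥S) (x : JRS hU q) : GQ := ((x : GQ))⁻¹

/-- the family `tRS` covers the places above every `q ∈ S` -/
theorem covers_tRS (q : ↥S) :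
    Covers (QuotientGroup.mk' U) (rS S) (tRS hU) q := by
  intro δ
  obtain ⟨g, rfl⟩ := QuotientGroup.mk'_surjective U δ
  obtain ⟨x, hx, τ, v, hg⟩ := (OpenJS.isRepr_RS S (VU U) (hVU hU) q).1 g⁻¹
  refine ⟨⟨x, hx⟩, (show primeLocalGaloisGroup q.1 from τ⁻¹), ?_⟩
  have hv : (QuotientGroup.mk' U) (v : GQ) = 1 := v.2
  have hg' : g = (v : GQ)⁻¹ * (x⁻¹ * (OpenJS.rS S q τ)⁻¹) := by
    have := congrArg (fun y => y⁻¹) hg
    simpa only [inv_inv, mul_inv_rev, mul_assoc] using this
  show (QuotientGroup.mk' U) (x : GQ)⁻¹ * (QuotientGroup.mk' U) (OpenJS.rS S q τ⁻¹) =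
    (QuotientGroup.mk' U) g
  rw [hg']
  simp only [map_mul, map_inv, hv, inv_one, one_mul]

variable (hpS : pPrime p ∈ S) (ζ : Qbˣ) (hζ : IsPrimitiveRoot ζ p)
  (hmu : ∀ s ∈ U, (Contract34.mu p).ρ s = 1)

/-- **the kernel half of (S1) at the places `PlaceV S V hV`, `V = (piU U).ker`** — the shape of
helper32's `KummerSq32.sha2_iff_placeV (→)` (= helper41's `sha2_iffV` with the local family of
helper94's `OpenJS`). -/
def KernelHalfPlaceV (p : ℕ) [Fact p.Prime] (S : Finset Nat.Primes) (U : Subgroup GQ) [U.Normal]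
    (hU : U ∈ (globalLevels S).levels) (hpS : pPrime p ∈ S) : Prop :=
  ∀ a : (levV S (VU U) (hVU hU)).H2 (ZV (VU U) p),
    (∀ w : OpenJS.PlaceV S (VU U) (hVU hU),
      (OpenJS.hcontS S (VU U) (hVU hU) w.1 (w.2 : GQ)).res₂ (ZV (VU U) p) a = 0) →
    a ∈ LinearMap.range ((kummerV S (VU U) hpS).δ₁ (levV S (VU U) (hVU hU))
      (EV_isSmooth S (VU U) (hVU hU)))

/-- **SEAM TEST / the producer**: `KernelHalfPlaceV` from helper41's `sha2_iffV` at
`W := PlaceV S V hV` with `locJ := locW` (helper94), `hJ1 := H1_JSp_eq_zero` (helper94),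
`hJ2 := locW_jointly_injective` (helper64/helper94): what remains are the class-module binders
`(hCl', hC, hCl, hfin)` and the local Kummer square `(κ, hκ, hcomm)` at the places
(helper32's `KummerSq32` (K1)-(K3)). -/
theorem kernelHalfPlaceV_of_square {C Cl : Rep.{0} ℤ GQ}
    {φ : @LinearMap ℤ ℤ _ _ (RingHom.id ℤ) (CSp S) C _ _ (CSp S).hV2 C.hV2}
    {ψ : @LinearMap ℤ ℤ _ _ (RingHom.id ℤ) C Cl _ _ C.hV2 Cl.hV2}
    (hCl' : ShortExact (A := CSp S) (B := C) (C := Cl) φ ψ)
    (hC : (globalLevels S).IsSmooth C) (hCl : IsPrimeToP p Cl)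
    (hfin : FiniteLevelH1 (globalLevels S) p C (VU U))
    (κ : ∀ w : OpenJS.PlaceV S (VU U) (hVU hU),
      (OpenJS.𝒱S S (VU U) w.1 (w.2 : GQ)).H2
        (Rep.res (Mackey.twHom (OpenJS.rS S w.1) (VU U) (w.2 : GQ)) (ZV (VU U) p)) →+
      OpenJS.BrW S (VU U) (hVU hU) w)
    (hκ : ∀ w, Function.Injective (κ w))
    (hcomm : ∀ (w : OpenJS.PlaceV S (VU U) (hVU hU))
      (a : (levV S (VU U) (hVU hU)).H2 (ZV (VU U) p)),
      κ w ((OpenJS.hcontS S (VU U) (hVU hU) w.1 (w.2 : GQ)).res₂ (ZV (VU U) p) a) =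
        OpenJS.locW S (VU U) (hVU hU) w
          ((levV S (VU U) (hVU hU)).H2map _
            (ideleV S (VU U) (nonempty_of_mem S hpS)).equivariant_left
            ((levV S (VU U) (hVU hU)).H2map _ (kummerV S (VU U) hpS).equivariant_left a))) :
    KernelHalfPlaceV p S U hU hpS := by
  intro a ha
  have key := @sha2_iffV p _ S (VU U) (hVU hU) C Cl φ ψ (OpenJS.PlaceV S (VU U) (hVU hU)) _
    (fun w => (OpenJS.𝒱S S (VU U) w.1 (w.2 : GQ)).H2
        (Rep.res (Mackey.twHom (OpenJS.rS S w.1) (VU U) (w.2 : GQ)) (ZV (VU U) p)))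
    (fun w => OpenJS.BrW S (VU U) (hVU hU) w) (fun _ => inferInstance) (fun _ => inferInstance) κ
    (fun w => ((OpenJS.hcontS S (VU U) (hVU hU) w.1 (w.2 : GQ)).res₂
      (ZV (VU U) p)).toAddMonoidHom)
    (fun w => (OpenJS.locW S (VU U) (hVU hU) w).toAddMonoidHom) hpS hCl' hC hCl hfin
    (H1.H1_JSp_eq_zero S (VU U) (hVU hU)) hκ hcomm
    (fun y _ hy => OpenJS.locW_jointly_injective S (VU U) (hVU hU) y hy) a
  exact key.1 ha

/-- **`hsha` for the family `tRS`** from the kernel half of (S1) at the places `PlaceV`. -/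
theorem hsha_tRS_of_placeV (hK : KernelHalfPlaceV p S U hU hpS) :
    ∀ x ∈ USha₂ (k := ZMod p) (hrS S) (hker_mk' hU) (tRS hU),
      ∃ a, S2Count92.kummerδ₁U hU hpS ζ hζ hmu a = x := by
  refine S2Count92.hsha_of_kernelHalf hU hpS ζ hζ hmu (tRS hU) (fun y hy => ?_)
  have h1 : ∀ w : OpenJS.PlaceV S (VU U) (hVU hU),
      (OpenJS.hcontS S (VU U) (hVU hU) w.1 (w.2 : GQ)).res₂ (ZV (VU U) p) y = 0 := by
    intro w
    have h2 := hy ⟨w.1, w.2⟩
    exact (res₂_conjKer_eq_zero_iff (hrS S w.1) (hker_mk' hU) (w.2 : GQ)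
      (Rep.res (piU U).ker.subtype (muRep p)) y).1 h2
  obtain ⟨a, ha⟩ := hK y h1
  exact ⟨a, ha⟩

/-- **`P7Named84.ShaKummer p S` from the kernel half of (S1) at the places `PlaceV`.** -/
theorem shaKummer_of_placeV
    (hK : ∀ (hpS : pPrime p ∈ S) (U : Subgroup GQ) [U.Normal]
      (hU : U ∈ (globalLevels S).levels), (∀ s ∈ U, (Contract34.mu p).ρ s = 1) →
      KernelHalfPlaceV p S U hU hpS) :
    P7Named84.ShaKummer p S := by
  intro hpS U _ hU hmu ζ hζ x hx
  have hcov : ∀ q : ↥S, Covers (QuotientGroup.mk' U) (rS S) (CountWire23.canonT' S U) q :=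
    fun q => covers_canonT (QuotientGroup.mk'_surjective U) (rS S) q
  have hx' : x ∈ USha₂ (k := ZMod p) (hrS S) (hker_mk' hU) (tRS hU) := by
    rw [← CountWire23.USha₂_eq_of_covers (k := ZMod p) (hrS S) (hker_mk' hU)
      (CountWire23.canonT' S U) (tRS hU) hcov (covers_tRS hU)]
    exact hx
  exact hsha_tRS_of_placeV hU hpS ζ hζ hmu (hK hpS U hU hmu) x hx'

/-- **(P7') `Contract34.HilbertCount p S`** from (A34) reciprocity and the kernel half of (S1) at
the places `PlaceV S V hV` for the levels `V = U` on which `μ_p` is trivial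
(`LocalBaseDim` = `hbase` is unconditional on main: `KummerBr95.localBaseDim32`). -/
theorem hilbertCount_of_placeV (hp2 : p ≠ 2) (hpS : pPrime p ∈ S)
    (hrecip : Contract34.Reciprocity p S) (hbase : LocalBaseDim p S)
    (hK : ∀ (hpS : pPrime p ∈ S) (U : Subgroup GQ) [U.Normal]
      (hU : U ∈ (globalLevels S).levels), (∀ s ∈ U, (Contract34.mu p).ρ s = 1) →
      KernelHalfPlaceV p S U hU hpS) :
    Contract34.HilbertCount p S :=
  P7Named84.hilbertCount_of_named hp2 hpS hrecip hbase (shaKummer_of_placeV hK)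

/-- **(P7') `Contract34.HilbertCount p S`, fully reduced**: from (A34) reciprocity, the
(unconditional) local base case, the class-module binders of helper41's `sha2_iffV`
(`hCl'`, `hC`, `hCl`, `hfin` at the levels), and the local Kummer squares `(κ, hκ, hcomm)` at the
places `PlaceV S V hV` of the levels `V = U` on which `μ_p` is trivial. -/
theorem hilbertCount_of_class_square (hp2 : p ≠ 2) (hpS : pPrime p ∈ S)
    (hrecip : Contract34.Reciprocity p S) (hbase : LocalBaseDim p S)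
    {C Cl : Rep.{0} ℤ GQ}
    {φ : @LinearMap ℤ ℤ _ _ (RingHom.id ℤ) (CSp S) C _ _ (CSp S).hV2 C.hV2}
    {ψ : @LinearMap ℤ ℤ _ _ (RingHom.id ℤ) C Cl _ _ C.hV2 Cl.hV2}
    (hCl' : ShortExact (A := CSp S) (B := C) (C := Cl) φ ψ)
    (hC : (globalLevels S).IsSmooth C) (hCl : IsPrimeToP p Cl)
    (hfin : ∀ (U : Subgroup GQ) [U.Normal], U ∈ (globalLevels S).levels →
      FiniteLevelH1 (globalLevels S) p C (VU U))
    (hsq : ∀ (U : Subgroup GQ) [U.Normal] (hU : U ∈ (globalLevels S).levels),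
      (∀ s ∈ U, (Contract34.mu p).ρ s = 1) →
      ∃ κ : ∀ w : OpenJS.PlaceV S (VU U) (hVU hU),
        (OpenJS.𝒱S S (VU U) w.1 (w.2 : GQ)).H2
          (Rep.res (Mackey.twHom (OpenJS.rS S w.1) (VU U) (w.2 : GQ)) (ZV (VU U) p)) →+
        OpenJS.BrW S (VU U) (hVU hU) w,
        (∀ w, Function.Injective (κ w)) ∧
        ∀ (w : OpenJS.PlaceV S (VU U) (hVU hU))
          (a : (levV S (VU U) (hVU hU)).H2 (ZV (VU U) p)),
          κ w ((OpenJS.hcontS S (VU U) (hVU hU) w.1 (w.2 : GQ)).res₂ (ZV (VU U) p) a) =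
            OpenJS.locW S (VU U) (hVU hU) w
              ((levV S (VU U) (hVU hU)).H2map _
                (ideleV S (VU U) (nonempty_of_mem S hpS)).equivariant_left
                ((levV S (VU U) (hVU hU)).H2map _
                  (kummerV S (VU U) hpS).equivariant_left a))) :
    Contract34.HilbertCount p S :=
  hilbertCount_of_placeV hp2 hpS hrecip hbase (fun hpS' U _ hU hmu => by
    obtain ⟨κ, hκ, hcomm⟩ := hsq U hU hmu
    exact kernelHalfPlaceV_of_square hU hpS' hCl' hC hCl (hfin U hU) κ hκ hcomm)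

end Fermat.Agent.S55.TwConj84
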