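/-
S55 / 46-K5-TWCONJ (helper84), file 3: THE CLASS-MODULE BINDERS ARE UNCONDITIONAL ON MAIN.

helper77's `Adapt77.Leaf33Final` (leaf 33 = 31-OUT + 32-OUT, unconditional) gives
`FiniteLevelH1 (globalLevels S) p (CSl S) V` for every `V` fixing `μ_p`, and helper72's
`ClassData72` gives `0 → C'_S → C_S → Cl_S → 0` with `Cl_S` prime-to-`p` torsion and `C_S` smooth.
Hence `TwConj84.KernelHalfPlaceV` (kernel half of (S1) at the places `PlaceV S V hV`),
`P7Named84.ShaKummer p S` and (P7') `Contract34.HilbertCount p S` follow from the LOCAL KUMMER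
SQUARES `(κ, hκ, hcomm)` at the places (helper32's `KummerSq32` (K1)-(K3)) — and (A34) reciprocity
for the count — and nothing else.
-/
import Fermat.Agent.S55.TwConj84.ShaKummer
import Fermat.Agent.S55.Adapt77.Leaf33Final
import Fermat.Agent.S55.KummerBr95.P5Final

set_option autoImplicit false
set_option linter.unusedSectionVars false

open CategoryTheory groupCohomology Module ExtCitation

noncomputable section

namespace Fermat.Agent.S55.TwConj84

open Fermat.Agent.S55.Profin15 Fermat.Agent.S55.Profin15.LevelStr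
open Fermat.Agent.S55.ShapiroLevel32 Fermat.Agent.S55.ShaTransport84
open Fermat.Agent.S55.Idele73 Fermat.Agent.S55.JSH2_64
open Fermat.Agent.S55.ESRep20 Fermat.Agent.S55.ESKummer20
open Fermat.Agent.S55.S1Limit41.Global Fermat.Agent.S55.S1Limit41.H1Cofinal
open Fermat.Agent.S55.GlobalMod94.JS Fermat.Agent.S55.ClassLimit72
open Fermat.Agent.S55.CountWire96
open Fermat.Agent.S55.GlobalMod94
open Fermat.Agent.Lib.FrobeniusExists (Qb GQ)

variable {p : ℕ} [Fact p.Prime] {S : Finset Nat.Primes}

/-- **the local Kummer square at the places above the level `U`** (the exact target shape of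
helper32's `KummerSq32` (K1)-(K3) at `V = (piU U).ker`): injective maps
`κ_w : H²(G_w; μ_p) → Br_w` with `κ_w ∘ res_w = loc_w ∘ (E_S → J_S)_* ∘ (μ_p → E_S)_*`. -/
def KummerSquare (p : ℕ) [Fact p.Prime] (S : Finset Nat.Primes) (U : Subgroup GQ) [U.Normal]
    (hU : U ∈ (globalLevels S).levels) (hpS : pPrime p ∈ S) : Prop :=
  ∃ κ : ∀ w : OpenJS.PlaceV S (VU U) (hVU hU),
    (OpenJS.𝒱S S (VU U) w.1 (w.2 : GQ)).H2
      (Rep.res (Mackey.twHom (OpenJS.rS S w.1) (VU U) (w.2 : GQ)) (ZV (VU U) p)) →+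
    OpenJS.BrW S (VU U) (hVU hU) w,
    (∀ w, Function.Injective (κ w)) ∧
    ∀ (w : OpenJS.PlaceV S (VU U) (hVU hU))
      (a : (levV S (VU U) (hVU hU)).H2 (ZV (VU U) p)),
      κ w ((OpenJS.hcontS S (VU U) (hVU hU) w.1 (w.2 : GQ)).res₂ (ZV (VU U) p) a) =
        OpenJS.locW S (VU U) (hVU hU) w
          ((levV S (VU U) (hVU hU)).H2map _
            (ideleV S (VU U) (nonempty_of_mem S hpS)).equivariant_left
            ((levV S (VU U) (hVU hU)).H2map _
              (kummerV S (VU U) hpS).equivariant_left a))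

variable {U : Subgroup GQ} [U.Normal] (hU : U ∈ (globalLevels S).levels)

/-- **the kernel half of (S1) at the places above `U`, from the local Kummer square alone**
(`p` odd, `μ_p` trivial on `U`): leaf 33 and the class-module datum are unconditional. -/
theorem kernelHalfPlaceV_of_kummerSquare (hp2 : p ≠ 2) (hpS : pPrime p ∈ S)
    (hmu : ∀ s ∈ U, (Contract34.mu p).ρ s = 1) (hsq : KummerSquare p S U hU hpS) :
    KernelHalfPlaceV p S U hU hpS := by
  obtain ⟨κ, hκ, hcomm⟩ := hsq
  exact kernelHalfPlaceV_of_square hU hpS (ClassData72.shortExact S) (ClassData72.isSmooth_CSl S)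
    (ClassData72.isPrimeToP_ClS S hpS)
    (Adapt77.Leaf33Final.finiteLevelH1_CS hpS hp2 (VU U)
      (S2Count92.cycloChar_eq_one_of_mu_piU hmu)) κ hκ hcomm

/-- **`P7Named84.ShaKummer p S` from the local Kummer squares alone.** -/
theorem shaKummer_of_kummerSquare (hp2 : p ≠ 2)
    (hsq : ∀ (hpS : pPrime p ∈ S) (U : Subgroup GQ) [U.Normal]
      (hU : U ∈ (globalLevels S).levels), (∀ s ∈ U, (Contract34.mu p).ρ s = 1) →
      KummerSquare p S U hU hpS) :
    P7Named84.ShaKummer p S :=
  shaKummer_of_placeV fun hpS U _ hU hmu =>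
    kernelHalfPlaceV_of_kummerSquare hU hp2 hpS hmu (hsq hpS U hU hmu)

/-- **(P7') `Contract34.HilbertCount p S` from (A34) reciprocity and the local Kummer squares
alone** (`LocalBaseDim` = `KummerBr95.localBaseDim32`, unconditional). -/
theorem hilbertCount_of_kummerSquare (hp2 : p ≠ 2) (hpS : pPrime p ∈ S)
    (hrecip : Contract34.Reciprocity p S)
    (hsq : ∀ (hpS : pPrime p ∈ S) (U : Subgroup GQ) [U.Normal]
      (hU : U ∈ (globalLevels S).levels), (∀ s ∈ U, (Contract34.mu p).ρ s = 1) →
      KummerSquare p S U hU hpS) :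
    Contract34.HilbertCount p S :=
  P7Named84.hilbertCount_of_named hp2 hpS hrecip (KummerBr95.localBaseDim32 p S)
    (shaKummer_of_kummerSquare hp2 hsq)

end Fermat.Agent.S55.TwConj84
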