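/-
S55 / 46-K5-TWCONJ (helper84), file 4: **`P7Named84.ShaKummer p S` IS UNCONDITIONAL (`p` odd)**, and
(P7') `Contract34.HilbertCount p S` follows from (A34) `Contract34.Reciprocity p S` ALONE.

`TwConj84.KummerSquare p S U hU hpS` is helper32's landed `KummerSq32.{kumW, kumW_injective, hcomm}`
at `V = (piU U).ker`, verbatim.
-/
import Fermat.Agent.S55.TwConj84.Final
import Fermat.Agent.S55.KummerSq32.Inj

set_option autoImplicit false

open CategoryTheory groupCohomology Module ExtCitation

namespace Fermat.Agent.S55.TwConj84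

open Fermat.Agent.S55.Profin15
open Fermat.Agent.Lib.FrobeniusExists (Qb GQ)

variable {p : ℕ} [Fact p.Prime] {S : Finset Nat.Primes}

/-- helper32's local Kummer square at the places above the level `U` -/
theorem kummerSquare (U : Subgroup GQ) [U.Normal] (hU : U ∈ (globalLevels S).levels)
    (hpS : pPrime p ∈ S) : KummerSquare p S U hU hpS :=
  ⟨KummerSq32.kumW S (VU U) (hVU hU) hpS, KummerSq32.kumW_injective S (VU U) (hVU hU) hpS,
    KummerSq32.hcomm S (VU U) (hVU hU) hpS⟩

/-- **`ShaKummer` (the kernel half of (S1) at every level `U` fixing `μ_p`, canonical family):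
unconditional for `p` odd.** -/
theorem shaKummer (hp2 : p ≠ 2) : P7Named84.ShaKummer p S :=
  shaKummer_of_kummerSquare hp2 fun hpS U _ hU _ => kummerSquare U hU hpS

/-- **(P7') `Contract34.HilbertCount p S` from (A34) reciprocity alone.** -/
theorem hilbertCount_of_reciprocity (hp2 : p ≠ 2) (hpS : pPrime p ∈ S)
    (hrecip : Contract34.Reciprocity p S) : Contract34.HilbertCount p S :=
  hilbertCount_of_kummerSquare hp2 hpS hrecip fun hpS U _ hU _ => kummerSquare U hU hpS

end Fermat.Agent.S55.TwConj84
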