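/-
S55 / 46-K5-TWCONJ (helper84), file 5 (seam test + downstream assembly): helper33's
`Final33f.s55_of_named4` with its input (A6') `hShaK` discharged by `TwConj84.shaKummer`
(unconditional).  The frozen S55 statement from THREE named arithmetic inputs:

  (A3)  `CDArith63.P1Chain.HasFormationDatum p S V hV` for every open `V` on which `μ_p` is trivial,
  (P34) `Contract34.Reciprocity p S`,
  (A5)  `ShapiroLevel32.GlobalLevelU p S`.

Also checks that the closures of `Final33f` and of `TwConj84.ShaKummerFinal` import jointly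
(no name clash).
-/
import Fermat.Agent.S55.Final33f
import Fermat.Agent.S55.TwConj84.ShaKummerFinal

set_option autoImplicit false

open CategoryTheory Module groupCohomology ExtCitation

namespace Fermat.Agent.S55.TwConj84

open Fermat.Agent.S55

/-- **the frozen S55 statement from the three named inputs (A3), (P34), (A5).** -/
theorem s55_of_named3 {p : ℕ} [Fact p.Prime] (hp2 : p ≠ 2) (S : Finset Nat.Primes)
    (hpS : pPrime p ∈ S)
    (M : Rep (ZMod p) (AlgebraicClosure ℚ ≃ₐ[ℚ] AlgebraicClosure ℚ))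
    [FiniteDimensional (ZMod p) M]
    (hsm : ∀ m : M, ∃ F : IntermediateField ℚ (AlgebraicClosure ℚ), FiniteDimensional ℚ F ∧
      ∀ s ∈ F.fixingSubgroup, M.ρ s m = m)
    (hMur : ∀ q : Nat.Primes, q ∉ S → ∀ A : ValuationSubring (AlgebraicClosure ℚ),
      A.LiesOverPrime (q : ℕ) → ∀ g ∈ A.inertiaSubgroupIn ℚ, M.ρ g = 1)
    (hDatum : ∀ (p : ℕ) [Fact p.Prime], p ≠ 2 → ∀ S : Finset Nat.Primes, pPrime p ∈ S →
      ∀ (V : Subgroup (AlgebraicClosure ℚ ≃ₐ[ℚ] AlgebraicClosure ℚ))
        (hV : CD3.IsOpenSub (Profin15.globalLevels S) V), CDArith63.Global.MuTriv p V →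
        CDArith63.P1Chain.HasFormationDatum p S V hV)
    (P34 : ∀ (p : ℕ) [Fact p.Prime], p ≠ 2 → ∀ S : Finset Nat.Primes, pPrime p ∈ S →
      Contract34.Reciprocity p S)
    (hLevU : ∀ (p : ℕ) [Fact p.Prime], p ≠ 2 → ∀ S : Finset Nat.Primes, pPrime p ∈ S →
      ShapiroLevel32.GlobalLevelU p S) :
    ∃ B : sha₁ S (M.dualTwist (cycloChar p)) →ₗ[ZMod p] sha₂ S M →ₗ[ZMod p] ZMod p,
      (∀ y, (∀ x, B y x = 0) → y = 0) ∧ (∀ x, (∀ y, B y x = 0) → x = 0) :=
  Final33f.s55_of_named4 hp2 S hpS M hsm hMur hDatum P34 hLevU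
    (fun _ _ hp2' _ _ => shaKummer hp2')

end Fermat.Agent.S55.TwConj84
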