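/-
S55 / 46-K5-TWCONJ (helper84), file 6: a system of representatives `R` of the double cosets
`r(H) \ G / π.ker` (helper73's `Mackey.IsRepr`) gives, through `x ↦ x⁻¹`, a family of conjugators
representing every `π (r H)`-orbit of `Γ` exactly once (`HrecTrace84.IsOrbitReps`).  Hence
`HrecTrace84.orbSectOf` is an orbit section (`ShapiroLevel32.OrbSect`) whose representatives ARE
the `π x⁻¹`, `x ∈ R`, and `HrecTrace84.eJ : ↥R ≃ (orbSectOf _).R` with `coe_eJ x = π x⁻¹`.

Concrete instance: helper94's `OpenJS.RS S V hV q` at `V = (piU U).ker`, family `tRS hU q`.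
-/
import Fermat.Agent.S55.TwConj84.ShaKummer
import Fermat.Agent.S55.HrecTrace84.Generic

set_option autoImplicit false
set_option linter.unusedSectionVars false

namespace Fermat.Agent.S55.TwConj84

open Fermat.Agent.S55.Profin15 Fermat.Agent.S55.ShapiroLevel32 Fermat.Agent.S55.ShaTransport84
open Fermat.Agent.S55.Idele73 Fermat.Agent.S55.HrecTrace84
open Fermat.Agent.S55.CountWire96 Fermat.Agent.S55.GlobalMod94
open Fermat.Agent.Lib.FrobeniusExists (Qb GQ)

section Generic

variable {G Γ H : Type} [Group G] [Group Γ] [Group H]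

/-- **representatives of `r(H) \ G / π.ker` ⟹ orbit representatives**, via `x ↦ x⁻¹` -/
theorem isOrbitReps_of_isRepr (π : G →* Γ) (hπ : Function.Surjective π) (r : H →* G)
    (R : Finset G) (hR : Mackey.IsRepr r π.ker R) :
    IsOrbitReps π r (fun x : ↥R => ((x : G))⁻¹) := by
  constructor
  · rintro ⟨x, hx⟩ ⟨y, hy⟩ hxy
    have h1 : (π x⁻¹)⁻¹ * π y⁻¹ ∈ (π.comp r).range := QuotientGroup.eq.1 hxy
    obtain ⟨h, hh⟩ := h1
    -- `x = r h * y * v'` with `v' ∈ π.ker`
    have hv : y⁻¹ * (r h)⁻¹ * x ∈ π.ker := by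
      rw [MonoidHom.mem_ker, map_mul, map_mul, map_inv, map_inv]
      have e : π (r h) = (π x⁻¹)⁻¹ * π y⁻¹ := hh
      rw [e, map_inv, map_inv, inv_inv]
      group
    have hdc : Mackey.InDC r π.ker y x := ⟨h, ⟨_, hv⟩, by
      show x = r h * y * (y⁻¹ * (r h)⁻¹ * x)
      group⟩
    exact Subtype.ext (hR.2 y hy x hx hdc).symm
  · intro c
    induction c using QuotientGroup.induction_on with
    | H δ =>
      obtain ⟨g, rfl⟩ := hπ δ
      obtain ⟨x, hx, τ, v, hg⟩ := hR.1 g⁻¹
      refine ⟨⟨x, hx⟩, ?_⟩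
      show (QuotientGroup.mk (π (x : G)⁻¹) : Γ ⧸ (π.comp r).range) = QuotientGroup.mk (π g)
      rw [QuotientGroup.eq]
      refine ⟨τ⁻¹, ?_⟩
      have hv : π (v : G) = 1 := v.2
      have hg' : g = (v : G)⁻¹ * x⁻¹ * (r τ)⁻¹ := by
        have := congrArg (fun y => y⁻¹) hg
        simpa only [inv_inv, mul_inv_rev, mul_assoc] using this
      show π (r τ⁻¹) = (π x⁻¹)⁻¹ * π g
      rw [hg', map_mul, map_mul, map_inv, map_inv, map_inv, map_inv, hv]
      group

end Generic

section Concrete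

variable {S : Finset Nat.Primes} {U : Subgroup GQ} [U.Normal]
  (hU : U ∈ (globalLevels S).levels)

/-- helper94's representatives of `D_q \ G_ℚ / V`, `V = (piU U).ker`, inverted, represent every
place of the fixed field of `U` above `q` exactly once -/
theorem isOrbitReps_tRS (q : ↥S) :
    IsOrbitReps (QuotientGroup.mk' U) (rS S q) (tRS hU q) :=
  isOrbitReps_of_isRepr (QuotientGroup.mk' U) (QuotientGroup.mk'_surjective U) (rS S q)
    (OpenJS.RS S (VU U) (hVU hU) q) (OpenJS.isRepr_RS S (VU U) (hVU hU) q)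

end Concrete

end Fermat.Agent.S55.TwConj84
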